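import Fermat.Agent.S59.H307.Glue
import Fermat.Agent.S59.G4.H109.Res2Alg

/-!
# Row S59, cell NMP, leaf DATUM (helper935): Brauer–Nesbitt for residual representations

Two residual representations over a field `K` (`2 ≠ 0`) with the same traces, one of them
irreducible with trace `0` at an involution, are equivalent.  This is
`Fermat.Agent.S59.H307.isEquiv_of_trace_eq` over the local ring `K`; the only thing to check is
that the "residual representation" of a representation over a field is irreducible if the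
representation is (`residual_ofResidual_isIrreducible`).
-/

set_option autoImplicit false

open IsLocalRing
open scoped TensorProduct

namespace Fermat.Agent.S59.NMP.H935

/-- Irreducibility of `k(K) ⊗[K] X` for a field `K` (explicit form). -/
theorem residual_ofResidual_aux {K : Type} [Field K] (X : ResidualGaloisRep K)
    (h : X.IsIrreducible) (W : Submodule (ResidueField K) (ResidueField K ⊗[K] X.V))
    (hW : ∀ σ : AlgebraicClosure ℚ ≃ₐ[ℚ] AlgebraicClosure ℚ, ∀ x ∈ W,
      (X.ρ σ).baseChange (ResidueField K) x ∈ W) : W = ⊥ ∨ W = ⊤ := by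
  let f : X.V →ₗ[K] (ResidueField K ⊗[K] X.V) := TensorProduct.mk K (ResidueField K) X.V 1
  have hf : ∀ v, f v = (1 : ResidueField K) ⊗ₜ[K] v := fun _ => rfl
  have hsurj : ∀ w : ResidueField K ⊗[K] X.V, ∃ v, f v = w := by
    intro w
    induction w using TensorProduct.induction_on with
    | zero => exact ⟨0, map_zero _⟩
    | tmul c v =>
      obtain ⟨a, rfl⟩ := IsLocalRing.residue_surjective c
      refine ⟨a • v, ?_⟩
      rw [hf, TensorProduct.tmul_smul, TensorProduct.smul_tmul', Algebra.smul_def, mul_one]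
      rfl
    | add x y hx hy =>
      obtain ⟨x', rfl⟩ := hx
      obtain ⟨y', rfl⟩ := hy
      exact ⟨x' + y', map_add _ _ _⟩
  let W' : Submodule K X.V := (W.restrictScalars K).comap f
  have hmem : ∀ v, v ∈ W' ↔ f v ∈ W := fun _ => Iff.rfl
  have hW' : ∀ σ : AlgebraicClosure ℚ ≃ₐ[ℚ] AlgebraicClosure ℚ, ∀ x ∈ W', X.ρ σ x ∈ W' := by
    intro σ x hx
    rw [hmem] at hx ⊢
    have h1 := hW σ (f x) hx
    rwa [hf, LinearMap.baseChange_tmul, ← hf] at h1
  rcases h W' hW' with h0 | h1
  · left
    rw [eq_bot_iff]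
    intro w hw
    obtain ⟨v, rfl⟩ := hsurj w
    have hv : v ∈ W' := (hmem v).mpr hw
    rw [h0] at hv
    rw [(Submodule.mem_bot K).mp hv, map_zero]
    exact Submodule.zero_mem _
  · right
    rw [eq_top_iff]
    intro w _
    obtain ⟨v, rfl⟩ := hsurj w
    have hv : v ∈ W' := by rw [h1]; exact Submodule.mem_top
    exact (hmem v).mp hv

/-- Over a field, the residual representation of `ofResidualGaloisRep X` is irreducible if `X`
is. -/
theorem residual_ofResidual_isIrreducible {K : Type} [Field K] (X : ResidualGaloisRep K)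
    (h : X.IsIrreducible) : (GaloisRepAdic.ofResidualGaloisRep X).residual.IsIrreducible :=
  fun W hW => residual_ofResidual_aux X h W hW

/-- **Brauer–Nesbitt** for two-dimensional residual representations (odd case): same traces,
`X` irreducible, trace `0` at an involution. -/
theorem residual_isEquiv_of_trace_eq {K : Type} [Field K] (h2 : (2 : K) ≠ 0)
    (X Y : ResidualGaloisRep K)
    (htr : ∀ σ : AlgebraicClosure ℚ ≃ₐ[ℚ] AlgebraicClosure ℚ,
      LinearMap.trace K X.V (X.ρ σ) = LinearMap.trace K Y.V (Y.ρ σ))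
    (c : AlgebraicClosure ℚ ≃ₐ[ℚ] AlgebraicClosure ℚ) (hcc : c * c = 1)
    (hc : LinearMap.trace K X.V (X.ρ c) = 0) (hirr : X.IsIrreducible) : X.IsEquiv Y := by
  obtain ⟨e⟩ := Fermat.Agent.S59.H307.isEquiv_of_trace_eq (A := K) (IsUnit.mk0 _ h2)
    (GaloisRepAdic.ofResidualGaloisRep X) (GaloisRepAdic.ofResidualGaloisRep Y) htr c hcc hc
    (residual_ofResidual_isIrreducible X hirr)
  exact ⟨⟨e.toLinearEquiv, e.map_apply⟩⟩

/-- Brauer–Nesbitt, characteristic polynomial form. -/
theorem residual_isEquiv_of_charpoly_eq {K : Type} [Field K] (h2 : (2 : K) ≠ 0)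
    (X Y : ResidualGaloisRep K)
    (hcp : ∀ σ : AlgebraicClosure ℚ ≃ₐ[ℚ] AlgebraicClosure ℚ,
      LinearMap.charpoly (X.ρ σ) = LinearMap.charpoly (Y.ρ σ))
    (c : AlgebraicClosure ℚ ≃ₐ[ℚ] AlgebraicClosure ℚ) (hcc : c * c = 1)
    (hc : LinearMap.trace K X.V (X.ρ c) = 0) (hirr : X.IsIrreducible) : X.IsEquiv Y := by
  refine residual_isEquiv_of_trace_eq h2 X Y (fun σ => ?_) c hcc hc hirr
  rw [Fermat.Agent.S59.G4.H109.trace_eq_neg_coeff_charpoly
      (Module.finBasisOfFinrankEq K X.V X.finrank_eq),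
    Fermat.Agent.S59.G4.H109.trace_eq_neg_coeff_charpoly
      (Module.finBasisOfFinrankEq K Y.V Y.finrank_eq), hcp σ]

end Fermat.Agent.S59.NMP.H935
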