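import Fermat.Agent.S59.NMP.H935.Shapes
import Fermat.Agent.S59.NMP.H935.ResBN
import Fermat.Agent.S59.TW.H788.ResGal
import Fermat.Agent.S59.H686.ResFrobDatum
import Fermat.Agent.S59.Arch.WilesLevel
import Fermat.Agent.S59.H659.Ord
import Fermat.Agent.S59.NMP.H437.RedTCore
import Fermat.Agent.S58.H273.ResGeneric
import Fermat.Agent.S23

/-!
# Row S59, cell NMP, leaf DATUM (helper935)

`ordDatum_of : G4.G4Statement → S31Shape → S33Shape → S34Shape → NMP.OrdDatumStatement`.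

* `datum_residual_isEquiv` (**RESEQ**, general): the residual representation of ANY Hecke–Galois
  datum over `T` whose residual character `θ` is the Frobenius character of `ρ̄` is `ρ̄ ⊗ k(T)`
  (`p` odd; Chebotarev `S58.H273.charpoly_residual_eq_of_frob` + Brauer–Nesbitt `ResBN`).
* `sigmaCond_ord_of`: the datum at the level `N_Σ p` is of type `.ord` (frozen S31, S33, S34 as
  hypotheses + determinant `H540`).
* `rig_of_datum` (**RIG**, `p` odd): `ρ_{T'} ⊗_res T ≅ ρ_T` for a `LevelPair`.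
-/

set_option autoImplicit false
set_option linter.unusedSectionVars false
set_option linter.style.haveILetI false

open Polynomial IsLocalRing

namespace Fermat.Agent.S59.NMP.H935

open CuspForm Fermat.Agent.S59.Arch Fermat.Agent.S59.H765

section Datum

variable {N : ℕ} [NeZero N] {S : Finset ℕ}
  {𝒪 : Type} [CommRing 𝒪] [IsDomain 𝒪] [IsDiscreteValuationRing 𝒪]
  [IsAdicComplete (maximalIdeal 𝒪) 𝒪]
  {θ : heckeAlgebra N 2 (↑S : Set ℕ) →+* ResidueField 𝒪}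
  {T : Type} [CommRing T] [IsLocalRing T] [IsNoetherianRing T]
  [IsAdicComplete (maximalIdeal T) T] [Algebra 𝒪 T] [IsLocalHom (algebraMap 𝒪 T)]
  [Module.Finite 𝒪 T] [Module.Free 𝒪 T]

omit [IsDomain 𝒪] [IsDiscreteValuationRing 𝒪] [IsAdicComplete (maximalIdeal 𝒪) 𝒪]
  [IsNoetherianRing T] [IsAdicComplete (maximalIdeal T) T] [Module.Finite 𝒪 T]
  [Module.Free 𝒪 T] in
/-- `p ∈ 𝔪_𝒪` implies `p ∈ 𝔪_T`. -/
theorem natCast_mem_maximalIdeal_h935 [IsLocalRing 𝒪] {p : ℕ} (hp𝒪 : (p : 𝒪) ∈ maximalIdeal 𝒪) :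
    (p : T) ∈ maximalIdeal T := by
  have h := ((local_hom_TFAE (algebraMap 𝒪 T)).out 0 2 rfl rfl).mp inferInstance
    (Ideal.mem_map_of_mem (algebraMap 𝒪 T) hp𝒪)
  rwa [map_natCast] at h

/-- The representation of a Hecke–Galois datum is odd (`p` odd): trace `0` at complex
conjugation. -/
theorem datum_trace_complexConjugation (p : ℕ) [Fact p.Prime] (hp2 : p ≠ 2)
    (hpT : (p : T) ∈ maximalIdeal T) (H : HeckeGaloisRepDatum N (↑S : Set ℕ) 𝒪 θ T) :
    H.ρ.trace complexConjugation = 0 :=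
  Fermat.Agent.S59.G4.H307.trace_eq_zero_of_det_eq_neg_one H.ρ complexConjugation
    complexConjugation_mul_self
    (Fermat.Agent.S59.G4.H178.det_involution_eq_neg_one H.ρ p hp2
      (Fermat.Agent.S59.H540.heckeGaloisRepDatum_detIsCyclotomic S H p hpT) complexConjugation
      complexConjugation_mul_self Fermat.Agent.S59.G4.H307.complexConjugation_ne_one)

/-- **RESEQ.**  The residual representation of a Hecke–Galois datum whose residual character is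
the Frobenius character of `ρ̄` is `ρ̄ ⊗ k(T)`. -/
theorem datum_residual_isEquiv (p : ℕ) [Fact p.Prime] (hp2 : p ≠ 2)
    (hpT : (p : T) ∈ maximalIdeal T) (H : HeckeGaloisRepDatum N (↑S : Set ℕ) 𝒪 θ T)
    (ρbar : ResidualGaloisRep (ResidueField 𝒪)) (hθ : G4.ResFrobCond ρbar θ) :
    H.ρ.residual.IsEquiv (ρbar.baseChangeAlong (ResidueField.map (algebraMap 𝒪 T))) := by
  classical
  have hp : p.Prime := Fact.out
  have hcp : ∀ g : AlgebraicClosure ℚ ≃ₐ[ℚ] AlgebraicClosure ℚ,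
      LinearMap.charpoly (H.ρ.residual.ρ g) =
        (LinearMap.charpoly (ρbar.ρ g)).map (ResidueField.map (algebraMap 𝒪 T)) := by
    refine Fermat.Agent.S58.H273.charpoly_residual_eq_of_frob ρbar
      (ResidueField.map (algebraMap 𝒪 T)) H.ρ (S ∪ N.primeFactors) ?_
    intro ℓ hℓ hℓF B hB σ hσ
    have hℓS : ℓ ∉ (↑S : Set ℕ) := fun h => hℓF (Finset.mem_union_left _ (Finset.mem_coe.mp h))
    have hℓN : ¬ ℓ ∣ N := fun h =>
      hℓF (Finset.mem_union_right _ (Nat.mem_primeFactors.mpr ⟨hℓ, h, NeZero.ne N⟩))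
    rw [H.charpoly_frob ℓ hℓ hℓN hℓS B hB σ hσ, hθ ℓ hℓ hℓN hℓS B hB σ hσ]
    simp only [Polynomial.map_sub, Polynomial.map_add, Polynomial.map_mul, Polynomial.map_pow,
      Polynomial.map_X, Polynomial.map_C, map_natCast, Polynomial.map_natCast, H.residue_π]
  have h2T : IsUnit (2 : T) := Fermat.Agent.S59.G4.H307.isUnit_two_of_odd_mem hp hp2 hpT
  have h2 : (2 : ResidueField T) ≠ 0 := by
    have h := h2T.map (residue T)
    rw [map_ofNat] at h
    exact h.ne_zero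
  have hc : LinearMap.trace (ResidueField T) H.ρ.residual.V
      (H.ρ.residual.ρ complexConjugation) = 0 := by
    have h1 : LinearMap.trace T H.ρ.V (H.ρ.ρ complexConjugation) = 0 :=
      datum_trace_complexConjugation p hp2 hpT H
    have h3 : LinearMap.trace (ResidueField T) H.ρ.residual.V
        (H.ρ.residual.ρ complexConjugation) =
        algebraMap T (ResidueField T) (LinearMap.trace T H.ρ.V (H.ρ.ρ complexConjugation)) :=
      LinearMap.trace_baseChange (H.ρ.ρ complexConjugation) (ResidueField T)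
    rw [h3, h1, map_zero]
  refine residual_isEquiv_of_charpoly_eq h2 _ _ (fun σ => ?_) complexConjugation
    complexConjugation_mul_self hc
    (Fermat.Agent.S59.G4.H307.isIrreducible_of_absIrr _ H.residual_absIrr)
  rw [hcp σ, Fermat.Agent.S59.H686.rfd_charpoly_baseChangeAlong]

end Datum

/-- The datum at the level `N_Σ p` is of type `.ord`. -/
theorem sigmaCond_ord_of (h31 : S31Shape) (h33 : S33Shape) (h34 : S34Shape)
    (p : ℕ) [Fact p.Prime]
    (𝒪 : Type) [CommRing 𝒪] [IsDomain 𝒪] [IsDiscreteValuationRing 𝒪]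
    [IsAdicComplete (maximalIdeal 𝒪) 𝒪] [Finite (ResidueField 𝒪)] [CharZero 𝒪]
    (ρbar : ResidualGaloisRep (ResidueField 𝒪)) (Smin : Finset ℕ)
    (h : ResidualHyp p 𝒪 ρbar Smin) (Sig : Finset ℕ)
    (hSig : Smin ⊆ Sig) (hSigP : ∀ q ∈ Sig, q.Prime) (hpSig : p ∈ Sig)
    (hord : (GaloisRepAdic.ofResidualGaloisRep ρbar).IsOrdinaryAt p)
    [NeZero (wilesLevel p .ord Smin Sig)]
    {θ' : heckeAlgebra (wilesLevel p .ord Smin Sig) 2 (↑Sig : Set ℕ) →+* ResidueField 𝒪}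
    {T' : Type} [CommRing T'] [IsLocalRing T'] [IsNoetherianRing T']
    [IsAdicComplete (maximalIdeal T') T'] [Algebra 𝒪 T'] [IsLocalHom (algebraMap 𝒪 T')]
    [Module.Finite 𝒪 T'] [Module.Free 𝒪 T']
    (H' : HeckeGaloisRepDatum (wilesLevel p .ord Smin Sig) (↑Sig : Set ℕ) 𝒪 θ' T')
    (hres' : H'.ρ.residual.IsEquiv
      (ρbar.baseChangeAlong (ResidueField.map (algebraMap 𝒪 T')))) :
    sigmaCond 𝒪 p .ord Smin Sig H'.ρ := by
  have hp : p.Prime := Fact.out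
  have hNS' : ∀ q : ℕ, q.Prime → q ∣ wilesLevel p .ord Smin Sig → q ∈ Sig :=
    fun q hq hd => prime_dvd_wilesLevel p .ord hSig hSigP hpSig hq hd
  have hpT' : (p : T') ∈ maximalIdeal T' := natCast_mem_maximalIdeal_h935 h.hp𝒪
  have hne : wilesLevel p .ord Smin Sig ≠ 0 := wilesLevel_ne_zero hp h.hSmin hSigP
  refine ⟨⟨Fermat.Agent.S59.H540.heckeGaloisRepDatum_detIsCyclotomic Sig H' p hpT', ?_, ?_⟩, ?_⟩
  · -- ordinary at `p` (frozen S33)
    refine h33 hp h.hp2 h.hp𝒪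
      ⟨dvd_wilesLevel_of_ne_flat hp (fun hh => PType.noConfusion hh),
        not_sq_dvd_wilesLevel hp h.hSmin hSigP h.hpSmin⟩ hNS' H' ?_
    have hι : IsLocalHom (ResidueField.map (algebraMap 𝒪 T')) := inferInstance
    have h1 := Fermat.Agent.S59.H659.isOrdinaryAt_baseChangeAlong
      (ResidueField.map (algebraMap 𝒪 T')) hι hord
    have h2 := Fermat.Agent.S59.H659.isOrdinaryAt_of_isEquiv
      ⟨(Fermat.Agent.S59.NMP.H437.ofResidualBaseChange437
        (ResidueField.map (algebraMap 𝒪 T')) hι ρbar).symm⟩ h1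
    obtain ⟨e⟩ := hres'
    exact Fermat.Agent.S59.H659.isOrdinaryAt_of_isEquiv
      ⟨(Fermat.Agent.S59.NMP.H437.ofResidualEquiv437 e).symm⟩ h2
  · -- unramified outside `Σ` (frozen S31)
    intro q hq hqS
    exact h31 hp h.hp𝒪 hpSig hNS' H' q hq hqS
  · -- unipotent inertia at `q ∈ Smin`, `q ≠ p` (frozen S34)
    intro q hqS hq hqp
    refine h34 hp h.hp𝒪 hpSig hNS' H' q hq hqp
      (dvd_wilesLevel_of_mem hp h.hSmin hSigP q (hSig hqS) hqp) ?_
    intro hd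
    have h2 := (hq.pow_dvd_iff_le_factorization hne).mp hd
    rw [factorization_wilesLevel hp h.hSmin hSigP] at h2
    have h1 : q ∈ Smin.erase p := Finset.mem_erase.mpr ⟨hqp, hqS⟩
    have h3 : q ∉ Sig \ Smin := fun hh => (Finset.mem_sdiff.mp hh).2 hqS
    have h4 : ¬ (PType.ord ≠ PType.flat ∧ q = p) := fun hh => hqp hh.2
    rw [if_pos h1, if_neg h3, if_neg h4] at h2
    omega

/-- **RIG** (`p` odd).  For a `LevelPair` and data `H`, `H'` with the canonical Hecke structures,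
`res = H765.resLocal` is local and `ρ_{T'} ⊗_res T ≅ ρ_T`. -/
theorem rig_of_datum (p : ℕ) [Fact p.Prime] (hp2 : p ≠ 2)
    {N N' : ℕ} [NeZero N] [NeZero N'] {S S' : Finset ℕ}
    (hpair : LevelPair N N' (↑S : Set ℕ) (↑S' : Set ℕ))
    (𝒪 : Type) [CommRing 𝒪] [IsDomain 𝒪] [IsDiscreteValuationRing 𝒪]
    [IsAdicComplete (maximalIdeal 𝒪) 𝒪] (hp𝒪 : (p : 𝒪) ∈ maximalIdeal 𝒪)
    [Fact (HasIntegralStructure N 2)] [Fact (HasIntegralStructure N' 2)]
    (θ : heckeAlgebra N 2 (↑S : Set ℕ) →+* ResidueField 𝒪)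
    (H : HeckeGaloisRepDatum N (↑S : Set ℕ) 𝒪 θ (heckeLocal N (↑S : Set ℕ) 𝒪 θ))
    (hH : H.π = heckeLocal.π N (↑S : Set ℕ) 𝒪 θ)
    (H' : HeckeGaloisRepDatum N' (↑S' : Set ℕ) 𝒪 (θ.comp (oldRestrict hpair))
      (heckeLocal N' (↑S' : Set ℕ) 𝒪 (θ.comp (oldRestrict hpair))))
    (hH' : H'.π = heckeLocal.π N' (↑S' : Set ℕ) 𝒪 (θ.comp (oldRestrict hpair))) :
    ∃ hres : IsLocalHom
        ((resLocal hpair 𝒪 θ :
          heckeLocal N' (↑S' : Set ℕ) 𝒪 (θ.comp (oldRestrict hpair)) →ₐ[𝒪]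
            heckeLocal N (↑S : Set ℕ) 𝒪 θ) :
          heckeLocal N' (↑S' : Set ℕ) 𝒪 (θ.comp (oldRestrict hpair)) →+*
            heckeLocal N (↑S : Set ℕ) 𝒪 θ),
      (H'.ρ.baseChangeAlong
        ((resLocal hpair 𝒪 θ :
          heckeLocal N' (↑S' : Set ℕ) 𝒪 (θ.comp (oldRestrict hpair)) →ₐ[𝒪]
            heckeLocal N (↑S : Set ℕ) 𝒪 θ) :
          heckeLocal N' (↑S' : Set ℕ) 𝒪 (θ.comp (oldRestrict hpair)) →+*
            heckeLocal N (↑S : Set ℕ) 𝒪 θ) hres).IsEquiv H.ρ := by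
  classical
  have hp : p.Prime := Fact.out
  have hloc : IsLocalHom
      ((resLocal hpair 𝒪 θ :
        heckeLocal N' (↑S' : Set ℕ) 𝒪 (θ.comp (oldRestrict hpair)) →ₐ[𝒪]
          heckeLocal N (↑S : Set ℕ) 𝒪 θ) :
        heckeLocal N' (↑S' : Set ℕ) 𝒪 (θ.comp (oldRestrict hpair)) →+*
          heckeLocal N (↑S : Set ℕ) 𝒪 θ) :=
    Fermat.Agent.S59.TW.H788.isLocalHom_of_finite (resLocal hpair 𝒪 θ)
  refine ⟨hloc, ?_⟩
  have htr : ∀ σ : AlgebraicClosure ℚ ≃ₐ[ℚ] AlgebraicClosure ℚ,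
      ((resLocal hpair 𝒪 θ :
        heckeLocal N' (↑S' : Set ℕ) 𝒪 (θ.comp (oldRestrict hpair)) →ₐ[𝒪]
          heckeLocal N (↑S : Set ℕ) 𝒪 θ) :
        heckeLocal N' (↑S' : Set ℕ) 𝒪 (θ.comp (oldRestrict hpair)) →+*
          heckeLocal N (↑S : Set ℕ) 𝒪 θ) (H'.ρ.trace σ) = H.ρ.trace σ := by
    refine Fermat.Agent.S59.TW.H788.map_trace_eq_of_frob _ hloc _ _ (S' ∪ N'.primeFactors) ?_
    intro ℓ hℓ hℓF B hB τ hτ
    have hℓS' : ℓ ∉ (↑S' : Set ℕ) := fun h =>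
      hℓF (Finset.mem_union_left _ (Finset.mem_coe.mp h))
    have hℓN' : ¬ ℓ ∣ N' := fun h =>
      hℓF (Finset.mem_union_right _ (Nat.mem_primeFactors.mpr ⟨hℓ, h, NeZero.ne N'⟩))
    have hℓN : ¬ ℓ ∣ N := fun h => hℓN' (h.trans hpair.dvd)
    have hℓS : ℓ ∉ (↑S : Set ℕ) := fun h => hℓS' (hpair.sub h)
    have h1 : H'.ρ.trace τ = H'.π (heckeAlgebra.T hℓ hℓN' hℓS') :=
      trace_eq_of_charpoly H'.ρ.finrank_eq _ _ _ (H'.charpoly_frob ℓ hℓ hℓN' hℓS' B hB τ hτ)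
    have h2 : H.ρ.trace τ = H.π (heckeAlgebra.T hℓ hℓN hℓS) :=
      trace_eq_of_charpoly H.ρ.finrank_eq _ _ _ (H.charpoly_frob ℓ hℓ hℓN hℓS B hB τ hτ)
    rw [h1, h2, hH, hH']
    exact resLocal_T hpair 𝒪 θ hℓ hℓN' hℓS' hℓN hℓS
  have hpT : (p : heckeLocal N (↑S : Set ℕ) 𝒪 θ) ∈ maximalIdeal (heckeLocal N (↑S : Set ℕ) 𝒪 θ) :=
    natCast_mem_maximalIdeal_h935 hp𝒪
  have h2 : IsUnit (2 : heckeLocal N (↑S : Set ℕ) 𝒪 θ) :=
    Fermat.Agent.S59.G4.H307.isUnit_two_of_odd_mem hp hp2 hpT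
  have hc : H.ρ.trace complexConjugation = 0 := datum_trace_complexConjugation p hp2 hpT H
  have hirr : H.ρ.residual.IsIrreducible :=
    Fermat.Agent.S59.G4.H307.isIrreducible_of_absIrr _ H.residual_absIrr
  obtain ⟨e⟩ := Fermat.Agent.S59.H307.isEquiv_of_trace_eq h2 H.ρ (H'.ρ.baseChangeAlong _ hloc)
    (fun σ => by rw [Fermat.Agent.S59.TW.H788.trace_baseChangeAlong, htr]) complexConjugation
    complexConjugation_mul_self hc hirr
  exact ⟨e.symm⟩

/-- **LEAF DATUM** of the cell NMP, from G4 and the frozen statements S31, S33, S34. -/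
theorem ordDatum_of (hG4 : Fermat.Agent.S59.G4.G4Statement) (h31 : S31Shape) (h33 : S33Shape)
    (h34 : S34Shape) : OrdDatumStatement := by
  intro p _ 𝒪 _ _ _ _ _ _ ρbar Smin h Sig hSig hSigP hpSig hord _ _ θ _ _ _ _ _ _ H hπ hres hcond
  have hp : p.Prime := Fact.out
  haveI hN' : NeZero (wilesLevel p .ord Smin Sig) := ⟨wilesLevel_ne_zero hp h.hSmin hSigP⟩
  haveI hI' : Fact (HasIntegralStructure (wilesLevel p .ord Smin Sig) 2) :=
    ⟨Fermat.Agent.S23.result _⟩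
  have hθ : Fermat.Agent.S59.G4.ResFrobCond ρbar θ :=
    Fermat.Agent.S59.H686.resFrobOfDatum _ _ 𝒪 ρbar θ _ H hres
  have hθ' : Fermat.Agent.S59.G4.ResFrobCond ρbar
      (θ.comp (oldRestrict (levelPair_flat_ord p hSig hSigP hpSig))) :=
    resFrobCond_comp _ hθ
  have hNS' : ∀ q : ℕ, q.Prime → q ∣ wilesLevel p .ord Smin Sig → q ∈ Sig :=
    fun q hq hd => prime_dvd_wilesLevel p .ord hSig hSigP hpSig hq hd
  obtain ⟨H', hH'⟩ := hG4 p h.hp2 (wilesLevel p .ord Smin Sig) Sig hpSig hNS' 𝒪 h.hp𝒪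
    (θ.comp (oldRestrict (levelPair_flat_ord p hSig hSigP hpSig))) ⟨ρbar, h.habs, hθ'⟩
  have hres' := datum_residual_isEquiv p h.hp2 (natCast_mem_maximalIdeal_h935 h.hp𝒪) H' ρbar hθ'
  exact ⟨hN', hI', inferInstance, inferInstance, inferInstance, inferInstance, inferInstance,
    inferInstance, H', hH', hres',
    sigmaCond_ord_of h31 h33 h34 p 𝒪 ρbar Smin h Sig hSig hSigP hpSig hord H' hres',
    rig_of_datum p h.hp2 (levelPair_flat_ord p hSig hSigP hpSig) 𝒪 h.hp𝒪 θ H hπ H' hH'⟩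

end Fermat.Agent.S59.NMP.H935
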